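/-
BAD / S35 (toric half, generic-fibre side): the decomposition group acts on the two special
fibres through the coefficientwise action of its image in `Aut k`.

Let `σ` be an automorphism of `L/ℚ` which preserves the valuation ring `A` and induces the ring
automorphism `φ` of the residue field `k` (`ResCompat A π σ φ`; e.g. `σ` a Frobenius element at
`q` and `φ = (x ↦ x ^ q)`, or `σ = τ²` and `φ = (x ↦ x ^ (q²))`), and let
`g = arithmeticGalois _ σ` be the induced semilinear automorphism of the bad-level function field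
`F_{Mℓ}`.  Then `g` preserves `O_∞`, `O_0` and `O = O_∞ ∩ O_0`, and

  `red_∞ (g f) = φ_* (red_∞ f)`,  `red_0 (g f) = φ_* (red_0 f)`,

where `φ_* = coeffSL M φ` is the coefficientwise action of `φ` on the mod-`ℓ` function field
`κ = modularFunctionFieldFullC k M`.  This generalises `BAD/TwoVal/GaloisPair.lean` (the inertia
group, `φ = 1`), and provides the hypotheses `hgO`, `hgO'`, `hgred` of
`NodalAsmTwist.toric_eigen_of_nodal_fibre_prod` for `g' = arithmeticGalois _ (τ * τ)`,
`τ` a Frobenius element.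
-/
import Mathlib
import Fermat.Agent.BAD.TwoVal.GaloisPair
import Fermat.Agent.ESJ.Cong.FrobFibre

set_option autoImplicit false

namespace Fermat.Agent.BAD.S35.FrobPair

open HahnSeries ModularCurve Polynomial AlgebraicCurve Fermat.Agent.Lib.Red Fermat.Agent.S28
open Fermat.Agent.ESJ.Cong.LevelGen Fermat.Agent.ESJ.Cong.FrobFibre Fermat.Agent.BAD.TwoVal
open scoped Pointwise

noncomputable section

/-! ### Generic: coefficientwise automorphisms and the Gauss ring -/

section Generic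

variable {L : Type*} [Field L] {A : ValuationSubring L} {k : Type*} [Field k] {π : A →+* k}

/-- `σ` preserves `A` and induces `φ` on the residue field. -/
def ResCompat (A : ValuationSubring L) (π : A →+* k) (σ : L →+* L) (φ : k →+* k) : Prop :=
  ∃ s : A →+* A, (∀ a : A, ((s a : A) : L) = σ (a : L)) ∧ ∀ a : A, π (s a) = φ (π a)

theorem ResCompat.mem {σ : L →+* L} {φ : k →+* k} (hσ : ResCompat A π σ φ) {a : L}
    (ha : a ∈ A) : σ a ∈ A := by
  obtain ⟨s, hs, -⟩ := hσ
  have := hs ⟨a, ha⟩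
  rw [← this]
  exact (s ⟨a, ha⟩).2

/-- An inertial automorphism is compatible with the identity. -/
theorem resCompat_of_inertial {σ : L →+* L} (hσ : Inertial A π σ) :
    ResCompat A π σ (RingHom.id k) := hσ

theorem ResCompat.comp {σ τ : L →+* L} {φ ψ : k →+* k} (hσ : ResCompat A π σ φ)
    (hτ : ResCompat A π τ ψ) : ResCompat A π (σ.comp τ) (φ.comp ψ) := by
  obtain ⟨s, hs, hπs⟩ := hσ
  obtain ⟨t, ht, hπt⟩ := hτ
  refine ⟨s.comp t, fun a => ?_, fun a => ?_⟩
  · rw [RingHom.comp_apply, RingHom.comp_apply, hs, ht]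
  · rw [RingHom.comp_apply, RingHom.comp_apply, hπs, hπt]

theorem rbar_coeffMap_of_compat {s : A →+* A} {φ : k →+* k}
    (hπs : ∀ a : A, π (s a) = φ (π a)) (g : LaurentSeries A) :
    rbar A π (coeffMap s g) = coeffMap φ (rbar A π g) := by
  unfold rbar
  rw [coeffMap_coeffMap, coeffMap_coeffMap]
  exact coeffMap_congr (RingHom.ext hπs) g

theorem coeffMap_ne_zero_of_field (φ : k →+* k) {x : LaurentSeries k} (hx : x ≠ 0) :
    coeffMap φ x ≠ 0 := by
  intro h0
  exact hx ((Fermat.Agent.ESJ.Cong.coeffMap_eq_zero_iff_of_injective φ φ.injective x).mp h0)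

/-- A compatible automorphism preserves the Gauss ring. -/
theorem ResCompat.coeffMap_mem_gaussRing {σ : L →+* L} {φ : k →+* k}
    (hσ : ResCompat A π σ φ) {y : LaurentSeries L} (hy : y ∈ gaussRing A π) :
    coeffMap σ y ∈ gaussRing A π := by
  obtain ⟨s, hs, hπs⟩ := hσ
  obtain ⟨s₀, P, hs₀, h⟩ := hy
  refine ⟨coeffMap s s₀, coeffMap s P, ?_, ?_⟩
  · rw [rbar_coeffMap_of_compat hπs]
    exact coeffMap_ne_zero_of_field φ hs₀
  · rw [← coeffMap_incl_of_hom hs, ← coeffMap_incl_of_hom hs, ← map_mul, h]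

/-- A compatible automorphism acts on the reduction of the Gauss ring through `φ`. -/
theorem ResCompat.red_coeffMap {σ : L →+* L} {φ : k →+* k} (hσ : ResCompat A π σ φ)
    {y : LaurentSeries L} (hy : y ∈ gaussRing A π) (hy' : coeffMap σ y ∈ gaussRing A π) :
    red A π ⟨coeffMap σ y, hy'⟩ = coeffMap φ (red A π ⟨y, hy⟩) := by
  obtain ⟨s, hs, hπs⟩ := hσ
  obtain ⟨s₀, P, hs₀, h⟩ := (mem_gaussRing_iff A π y).mp hy
  have hs₀' : rbar A π (coeffMap s s₀) ≠ 0 := by
    rw [rbar_coeffMap_of_compat hπs]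
    exact coeffMap_ne_zero_of_field φ hs₀
  have h' : incl A (coeffMap s s₀) * coeffMap σ y = incl A (coeffMap s P) := by
    rw [← coeffMap_incl_of_hom hs, ← coeffMap_incl_of_hom hs, ← map_mul, h]
  rw [red_eq A π ⟨coeffMap σ y, hy'⟩ hs₀' h', red_eq A π ⟨y, hy⟩ hs₀ h,
    rbar_coeffMap_of_compat hπs, rbar_coeffMap_of_compat hπs, map_div₀]

end Generic

/-! ### The decomposition group -/

section Decomposition

variable {K L : Type*} [Field K] [Field L] [Algebra K L] {A : ValuationSubring L}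
  {k : Type*} [Field k] {π : A →+* k}

/-- A Frobenius element at `q` is compatible with the `q`-power map of the residue field. -/
theorem resCompat_of_isFrobeniusAt (hπ : ∀ a : A, ¬ IsUnit a → π a = 0) {σ : L ≃ₐ[K] L} {q : ℕ}
    (hσ : A.IsFrobeniusAt σ q) (φ : k →+* k) (hφ : ∀ x, φ x = x ^ q) :
    ResCompat A π (σ : L →+* L) φ := by
  have hd := hσ.mem_decompositionSubgroup
  refine ⟨Fermat.Agent.ESJ.Cong.decompRingHom A ⟨σ, hd⟩, fun a => rfl, fun a => ?_⟩
  have hres := Fermat.Agent.ESJ.Cong.residue_decompRingHom A ⟨σ, hd⟩ a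
  rw [Fermat.Agent.ESJ.Cong.resAut_apply_of_isFrobeniusAt A hσ] at hres
  have hres' : IsLocalRing.residue A
      (Fermat.Agent.ESJ.Cong.decompRingHom A ⟨σ, hd⟩ a - a ^ q) = 0 := by
    rw [map_sub, hres, map_pow]
    exact sub_self _
  have hnu : ¬ IsUnit (Fermat.Agent.ESJ.Cong.decompRingHom A ⟨σ, hd⟩ a - a ^ q) := by
    intro hu
    exact (IsLocalRing.residue_ne_zero_iff_isUnit _).mpr hu hres'
  have := hπ _ hnu
  rw [map_sub, sub_eq_zero, map_pow] at this
  rw [this, hφ]

/-- The inverse of a compatible automorphism is compatible with the inverse. -/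
theorem ResCompat.symm {σ : L ≃ₐ[K] L} {φ : k ≃+* k}
    (hσ : ResCompat A π (σ : L →+* L) (φ : k →+* k))
    (hd : σ ∈ A.decompositionSubgroup K) :
    ResCompat A π ((σ⁻¹ : L ≃ₐ[K] L) : L →+* L) (φ.symm : k →+* k) := by
  obtain ⟨s, hs, hπs⟩ := hσ
  have hd' : σ⁻¹ ∈ A.decompositionSubgroup K := inv_mem hd
  refine ⟨Fermat.Agent.ESJ.Cong.decompRingHom A ⟨σ⁻¹, hd'⟩, fun a => rfl, fun a => ?_⟩
  have e : s (Fermat.Agent.ESJ.Cong.decompRingHom A ⟨σ⁻¹, hd'⟩ a) = a := by
    apply Subtype.ext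
    rw [hs]
    show σ (σ⁻¹ (a : L)) = (a : L)
    exact σ.apply_symm_apply _
  have h2 := hπs (Fermat.Agent.ESJ.Cong.decompRingHom A ⟨σ⁻¹, hd'⟩ a)
  rw [e] at h2
  show π _ = φ.symm (π a)
  rw [h2]
  exact (φ.symm_apply_apply _).symm

end Decomposition

/-! ### The bad level -/

section Bad

variable {L : Type*} [Field L] [Algebra ℚ L] {A : ValuationSubring L} {k : Type} [Field k]
  {π : A →+* k} {M ℓ : ℕ} [NeZero M] [NeZero ℓ]
  {W : laurentBaseChange L (modularFunctionFieldFull (M * ℓ)) ≃ₐ[L]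
    laurentBaseChange L (modularFunctionFieldFull (M * ℓ))}

/-- A compatible automorphism preserves `O_∞`. -/
theorem galois_mem_OInf (h : BadSetup A π M ℓ) {σ : L ≃ₐ[ℚ] L} {φ : k →+* k}
    (hσ : ResCompat A π (σ : L →+* L) φ)
    {f : laurentBaseChange L (modularFunctionFieldFull (M * ℓ))} (hf : f ∈ OInf h) :
    arithmeticGalois (modularFunctionFieldFull (M * ℓ)) σ • f ∈ OInf h :=
  hσ.coeffMap_mem_gaussRing hf

/-- A compatible automorphism acts on the reduction at `∞` coefficientwise through `φ`. -/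
theorem redInf_galois (h : BadSetup A π M ℓ) {σ : L ≃ₐ[ℚ] L} {φ : k ≃+* k}
    (hσ : ResCompat A π (σ : L →+* L) (φ : k →+* k))
    (f : laurentBaseChange L (modularFunctionFieldFull (M * ℓ))) (hf : f ∈ OInf h)
    (hf' : arithmeticGalois (modularFunctionFieldFull (M * ℓ)) σ • f ∈ OInf h) :
    redInf h ⟨arithmeticGalois (modularFunctionFieldFull (M * ℓ)) σ • f, hf'⟩ =
      coeffSL M φ • redInf h ⟨f, hf⟩ := by
  apply Subtype.ext
  rw [coe_coeffSL_smul, coe_redInf, coe_redInf]
  exact hσ.red_coeffMap hf hf'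

/-- A compatible automorphism preserves `O_0`. -/
theorem galois_mem_OZero (h : BadSetup A π M ℓ) (hW : IsAL M ℓ W) {σ : L ≃ₐ[ℚ] L}
    {φ : k →+* k} (hσ : ResCompat A π (σ : L →+* L) φ)
    {f : laurentBaseChange L (modularFunctionFieldFull (M * ℓ))} (hf : f ∈ OZero h W) :
    arithmeticGalois (modularFunctionFieldFull (M * ℓ)) σ • f ∈ OZero h W := by
  rw [mem_OZero_iff, hW.galois_comm h.hℓ h.not_dvd]
  exact galois_mem_OInf h hσ hf

/-- A compatible automorphism acts on the reduction at `0` coefficientwise through `φ`. -/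
theorem redZero_galois (h : BadSetup A π M ℓ) (hW : IsAL M ℓ W) {σ : L ≃ₐ[ℚ] L}
    {φ : k ≃+* k} (hσ : ResCompat A π (σ : L →+* L) (φ : k →+* k))
    (f : laurentBaseChange L (modularFunctionFieldFull (M * ℓ))) (hf : f ∈ OZero h W)
    (hf' : arithmeticGalois (modularFunctionFieldFull (M * ℓ)) σ • f ∈ OZero h W) :
    redZero h W ⟨arithmeticGalois (modularFunctionFieldFull (M * ℓ)) σ • f, hf'⟩ =
      coeffSL M φ • redZero h W ⟨f, hf⟩ := by
  rw [redZero_mk, redZero_mk]
  have e := hW.galois_comm h.hℓ h.not_dvd σ f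
  rw [redInf_congr h e hf' (galois_mem_OInf h hσ hf)]
  exact redInf_galois h hσ (W f) hf _

/-- A compatible automorphism preserves `O = O_∞ ∩ O_0`. -/
theorem galois_mem_OPair (h : BadSetup A π M ℓ) (hW : IsAL M ℓ W) {σ : L ≃ₐ[ℚ] L}
    {φ : k →+* k} (hσ : ResCompat A π (σ : L →+* L) φ)
    {f : laurentBaseChange L (modularFunctionFieldFull (M * ℓ))} (hf : f ∈ OPair h W) :
    arithmeticGalois (modularFunctionFieldFull (M * ℓ)) σ • f ∈ OPair h W := by
  rw [mem_OPair_iff] at hf ⊢
  exact ⟨galois_mem_OInf h hσ hf.1, galois_mem_OZero h hW hσ hf.2⟩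

/-- **A compatible automorphism acts on the reduction of the pair through `φ`, component by
component** (the hypothesis `hgred` of `NodalAsmTwist.toric_eigen_of_nodal_fibre_prod`). -/
theorem redPair_galois (h : BadSetup A π M ℓ) (hW : IsAL M ℓ W) {σ : L ≃ₐ[ℚ] L}
    {φ : k ≃+* k} (hσ : ResCompat A π (σ : L →+* L) (φ : k →+* k))
    (y : OPair h W)
    (hy' : arithmeticGalois (modularFunctionFieldFull (M * ℓ)) σ •
      (y : laurentBaseChange L (modularFunctionFieldFull (M * ℓ))) ∈ OPair h W) :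
    redPair h W ⟨arithmeticGalois (modularFunctionFieldFull (M * ℓ)) σ •
        (y : laurentBaseChange L (modularFunctionFieldFull (M * ℓ))), hy'⟩ =
      (coeffRingAut M φ (redPair h W y).1, coeffRingAut M φ (redPair h W y).2) := by
  obtain ⟨y, hy⟩ := y
  rw [redPair_mk, redPair_mk]
  refine Prod.ext ?_ ?_
  · exact redInf_galois h hσ y _ _
  · exact redZero_galois h hW hσ y _ _

/-- The inverse preserves `O` as well. -/
theorem galois_inv_mem_OPair (h : BadSetup A π M ℓ) (hW : IsAL M ℓ W) {σ : L ≃ₐ[ℚ] L}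
    {φ : k ≃+* k} (hσ : ResCompat A π (σ : L →+* L) (φ : k →+* k))
    (hd : σ ∈ A.decompositionSubgroup ℚ)
    {f : laurentBaseChange L (modularFunctionFieldFull (M * ℓ))} (hf : f ∈ OPair h W) :
    (arithmeticGalois (modularFunctionFieldFull (M * ℓ)) σ)⁻¹ • f ∈ OPair h W := by
  rw [← map_inv]
  exact galois_mem_OPair h hW (hσ.symm hd) hf

end Bad

end

end Fermat.Agent.BAD.S35.FrobPair
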