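import Mathlib
import Fermat.Agent.BAD.FormalHalf
import Fermat.Agent.BAD.S35.FrobPair

/-!
# BAD / S35 — the formal half at a Frobenius element

Instance of `FormalHalf.exists_toric_kummer` at a Frobenius element `τ` of a valuation ring `A`
of `ℚ̄` over `q` (`A.IsFrobeniusAt τ q`), in the shape consumed by the toric half
(`BAD/S35/ToricFrob.lean`):

for an `m`-torsion class `x ∈ J₀(Mq)` killed by both degeneracy push-forwards, the class
`τ²x − x` has a Kummer pair `(D, G)` — `m • D = div G` — with `G` a unit of `O = O_∞ ∩ O_0`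
whose reduction is `(1, 1)`.
-/

set_option autoImplicit false

namespace Fermat.Agent.BAD.S35.FormalInst

open HahnSeries ModularCurve Polynomial AlgebraicCurve Fermat.Agent.Lib.Red Fermat.Agent.S28
open Fermat.Agent.ESJ.Cong.LevelGen Fermat.Agent.BAD.TwoVal Fermat.Agent.ESJ.Cong
open scoped Pointwise

local notation "Qb" => AlgebraicClosure ℚ

noncomputable section

variable {A : ValuationSubring Qb} {k : Type} [Field k] {π : A →+* k} {M q : ℕ}
  [NeZero M] [NeZero q]
  {W : modularFunctionFieldBar (M * q) ≃ₐ[Qb] modularFunctionFieldBar (M * q)}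

/-- **The formal half at a Frobenius element** (reduction `(1, 1)`). -/
theorem exists_toric_kummer_frob (h : BadSetup A π M q) (hsurj : Function.Surjective π)
    (hW : IsAL M q W) (τ : Qb ≃ₐ[ℚ] Qb) (hτ : A.IsFrobeniusAt τ q)
    (m : ℕ) (hm : 0 < m) (hroot : ∀ c : k, ∃ d : k, d ^ m = c)
    (x : JZero (M * q)) (hx : m • x = 0)
    (hα : levelPushAlpha M q x = 0) (hβ : levelPushBeta M q x = 0) :
    ∃ (D : Divisor.degZero (K := Qb) (F := modularFunctionFieldBar (M * q)))
      (G : modularFunctionFieldBar (M * q)),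
      Pic0.mk D = τ • τ • x - x ∧ G ≠ 0 ∧
      (∀ P : Place Qb (modularFunctionFieldBar (M * q)),
        (m : ℤ) * (D : Divisor Qb (modularFunctionFieldBar (M * q))) P = P.ord G) ∧
      ∃ (hG : G ∈ OPair h W), G⁻¹ ∈ OPair h W ∧ redPair h W ⟨G, hG⟩ = (1, 1) := by
  classical
  have hq : q.Prime := h.hℓ
  have : Fact q.Prime := ⟨hq⟩
  have : CharP k q := h.charP
  -- a primitive `q`-th root of unity
  obtain ⟨ζ, hζ⟩ : ∃ ζ : Qbˣ, IsPrimitiveRoot ζ q := by
    obtain ⟨z, hz⟩ := HasEnoughRootsOfUnity.exists_primitiveRoot Qb q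
    exact ⟨hz.isUnit (NeZero.ne q) |>.unit, by
      rw [← IsPrimitiveRoot.coe_units_iff]; exact hz⟩
  have hd := hτ.mem_decompositionSubgroup
  obtain ⟨s, hs, hsτ⟩ := FrobPair.resCompat_of_isFrobeniusAt h.hπ hτ (frobenius k q)
    (fun x => frobenius_def q x)
  obtain ⟨D, G, hDx, hdiv, h1, h2, hr1, hr2⟩ := FormalHalf.exists_toric_kummer h hsurj hW ζ hζ τ
    (fun a => mem_iff_of_mem_decomposition hd a) s hs (frobenius k q)
    (fun x => frobenius_def q x) hsτ m hm hroot x hx hα hβ
  have hG : G ∈ OPair h W := (mem_OPair_iff h G).2 ⟨h1, h2⟩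
  have hi1 : G⁻¹ ∈ OInf h := inv_mem_OInf h G h1 (by rw [hr1]; exact one_ne_zero)
  have hi2 : G⁻¹ ∈ OZero h W := inv_mem_OZero h G h2 (by rw [hr2]; exact one_ne_zero)
  refine ⟨D, G, hDx.symm, hdiv.1, fun P => ?_, hG, (mem_OPair_iff h _).2 ⟨hi1, hi2⟩, ?_⟩
  · rw [← hdiv.2 P, Finsupp.smul_apply, nsmul_eq_mul]
  · rw [redPair_mk]
    exact Prod.ext hr1 hr2

/-- **The formal half at a Frobenius element**, in the shape consumed by the toric half: the
residue field is algebraically closed and the reduction of `G` is a pair of constants. -/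
theorem formal_half [IsAlgClosed k] (h : BadSetup A π M q) (hsurj : Function.Surjective π)
    (hW : IsAL M q W) (m : ℕ) (hm : 0 < m)
    (x : JZero (M * q)) (hx : m • x = 0)
    (hα : levelPushAlpha M q x = 0) (hβ : levelPushBeta M q x = 0)
    (τ : Qb ≃ₐ[ℚ] Qb) (hτ : A.IsFrobeniusAt τ q) :
    ∃ (D : Divisor.degZero (K := Qb) (F := modularFunctionFieldBar (M * q)))
      (G : modularFunctionFieldBar (M * q)),
      Pic0.mk D = τ • τ • x - x ∧ G ≠ 0 ∧
      (∀ P : Place Qb (modularFunctionFieldBar (M * q)),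
        (m : ℤ) * (D : Divisor Qb (modularFunctionFieldBar (M * q))) P = P.ord G) ∧
      ∃ (hG : G ∈ OPair h W), G⁻¹ ∈ OPair h W ∧ ∃ c₁ c₂ : k, redPair h W ⟨G, hG⟩ =
        (algebraMap k ↥(modularFunctionFieldFullC k M) c₁,
          algebraMap k ↥(modularFunctionFieldFullC k M) c₂) := by
  obtain ⟨D, G, h1, h2, h3, hG, hG', hred⟩ := exists_toric_kummer_frob h hsurj hW τ hτ m hm
    (fun c => IsAlgClosed.exists_pow_nat_eq c hm) x hx hα hβ
  exact ⟨D, G, h1, h2, h3, hG, hG', 1, 1, by rw [hred, map_one]⟩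

end

end Fermat.Agent.BAD.S35.FormalInst
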