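/-
BAD / S35 (toric half, special-fibre side): a rational point of a chart ring is fixed by the
Frobenius twist, and `f ≡ c` there implies `g f ≡ c ^ r`.

Abstract form (`IsFF1` function fields; `BAD/NodalRiemann` + `BAD/NodalPlaces` only).
`F/K` a function field with coordinate `x`, `g` a semilinear automorphism of `F/K` with `g x = x`
acting on the constants through `c ↦ c ^ r`, `R = finRing K x` the chart ring of `x`, and
`R₀ ⊆ R` a spanning set of `g`-fixed elements.  A place `P` at which `x` is regular and at which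
every element of `R₀` takes a value `c` with `c ^ r = c` (a "rational point") satisfies:

* `cong_smul_of_mem_finRing` : `f ≡ c` at `P` implies `g f ≡ c ^ r` at `P`, for `f ∈ R`;
* `inv_smul_place_eq` : `g⁻¹ • P = P` (strong approximation);
* **`cong_smul`** : `f ≡ c` at `P` implies `g f ≡ c ^ r` at `P`, for every `f ∈ F`.

This is the hypothesis `hφ₁`/`hφ₂` of `NodalAsmTwist.toric_eigen_of_nodal_fibre_prod` at a node.
-/
import Mathlib
import Fermat.Prelude.Def_AlgebraicCurve_BaseChangeGalois
import Fermat.Agent.BAD.NodalPlaces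
import Fermat.Agent.BAD.NodalRiemann
import Fermat.Agent.Lib.FF.RRApprox

set_option autoImplicit false

namespace Fermat.Agent.BAD.S35.NodeTwist

open AlgebraicCurve WithZero Fermat.Agent.Lib.FF Fermat.Agent.BAD.NodalRiemann
  Fermat.Agent.BAD.NodalPlaces

variable {K F : Type*} [Field K] [Field F] [Algebra K F]

theorem val_smul (g : SemilinearAut K F) (P : Place K F) (f : F) :
    (g • P).adicValuation (g • f) = P.adicValuation f := by
  rcases eq_or_ne f 0 with rfl | hf
  · simp
  · have hgf : g • f ≠ 0 := (smul_ne_zero_iff_ne _).mpr hf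
    rw [Place.adicValuation_eq_exp_neg_ord _ hgf, Place.adicValuation_eq_exp_neg_ord _ hf,
      SemilinearAut.ord_smul]

theorem val_smul' (g : SemilinearAut K F) (P : Place K F) (f : F) :
    P.adicValuation (g • f) = (g⁻¹ • P).adicValuation f := by
  have h := val_smul g (g⁻¹ • P) f
  rwa [smul_inv_smul] at h

/-- `f ≡ c` at `g⁻¹ P` iff `g f ≡ g c` at `P`. -/
theorem cong_inv_smul_iff (g : SemilinearAut K F) (P : Place K F) (f : F) (c : K) :
    Cong (g⁻¹ • P) f c ↔ Cong P (g • f) (SemilinearAut.baseAut g c) := by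
  unfold Cong
  rw [← val_smul', smul_sub, SemilinearAut.smul_algebraMap]

variable {x : F}

/-- A semilinear automorphism fixing `x` preserves the chart ring of `x`. -/
theorem smul_mem_finRing (g : SemilinearAut K F) (hx : g • x = x) {a : F}
    (ha : a ∈ finRing K x) : g • a ∈ finRing K x := by
  intro P hP
  rw [val_smul']
  apply ha
  rw [← val_smul', hx]
  exact hP

section Twist

variable (g : SemilinearAut K F) (r : ℕ)
  (hbase : ∀ c : K, SemilinearAut.baseAut g c = c ^ r)
  (R₀ : Set F) (hfix : ∀ f ∈ R₀, g • f = f)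
  (hspan : ∀ f ∈ finRing K x, f ∈ Submodule.span K R₀)
  (P : Place K F)
  (hrat : ∀ f ∈ R₀, ∃ c : K, Cong P f c ∧ c ^ r = c)

include hbase hfix hrat in
/-- On the span of the fixed set, `f ≡ c` at `P` implies `g f ≡ c ^ r`. -/
theorem exists_cong_of_mem_span {f : F} (hf : f ∈ Submodule.span K R₀) :
    ∃ c : K, Cong P f c ∧ Cong P (g • f) (c ^ r) := by
  induction hf using Submodule.span_induction with
  | mem f hf =>
    obtain ⟨c, hc, hcr⟩ := hrat f hf
    refine ⟨c, hc, ?_⟩
    rw [hfix f hf, hcr]
    exact hc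
  | zero =>
    refine ⟨0, cong_zero P, ?_⟩
    rw [smul_zero, ← hbase, map_zero]
    exact cong_zero P
  | add f₁ f₂ _ _ h₁ h₂ =>
    obtain ⟨c₁, hc₁, hc₁'⟩ := h₁
    obtain ⟨c₂, hc₂, hc₂'⟩ := h₂
    refine ⟨c₁ + c₂, hc₁.add hc₂, ?_⟩
    rw [smul_add, ← hbase, map_add, hbase, hbase]
    exact hc₁'.add hc₂'
  | smul a f _ h =>
    obtain ⟨c, hc, hc'⟩ := h
    refine ⟨a * c, hc.smul a, ?_⟩
    have e : g • (a • f) = (a ^ r) • (g • f) := by
      rw [Algebra.smul_def, Algebra.smul_def, smul_mul', SemilinearAut.smul_algebraMap, hbase]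
    rw [e, mul_pow]
    exact hc'.smul (a ^ r)

include hbase hfix hspan hrat in
/-- On the chart ring, `f ≡ c` at `P` implies `g f ≡ c ^ r` at `P`. -/
theorem cong_smul_of_mem_finRing {f : F} (hf : f ∈ finRing K x) {c : K} (hc : Cong P f c) :
    Cong P (g • f) (c ^ r) := by
  obtain ⟨c', hc', hc''⟩ := exists_cong_of_mem_span g r hbase R₀ hfix P hrat (hspan f hf)
  rw [hc.unique hc']
  exact hc''

include hbase hfix hspan hrat in
/-- **A rational point is fixed by the twist.** -/
theorem inv_smul_place_eq (h : IsFF1 K F x) (hgx : g • x = x) (hP : P.adicValuation x ≤ 1) :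
    g⁻¹ • P = P := by
  classical
  by_contra hne
  obtain ⟨P₀, hP₀⟩ := h.exists_pole
  have hx0 : x ≠ 0 := fun h0 => h.transcendental (h0 ▸ isAlgebraic_zero)
  have hP₀' : 1 < P₀.adicValuation x := by
    rw [Place.adicValuation_eq_exp_neg_ord _ hx0, ← exp_zero, exp_lt_exp]
    omega
  have hP' : (g⁻¹ • P).adicValuation x ≤ 1 := by
    rw [← val_smul', hgx]
    exact hP
  have hS : P₀ ∉ ({P, g⁻¹ • P} : Finset (Place K F)) := by
    rw [Finset.mem_insert, Finset.mem_singleton]
    rintro (rfl | rfl)
    · exact absurd hP (not_le.mpr hP₀')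
    · exact absurd hP' (not_le.mpr hP₀')
  obtain ⟨f, hf1, hf2⟩ := h.strong_approximation {P, g⁻¹ • P} P₀ hS
    (fun v => if v = P then 0 else 1) (fun _ => 1)
  have hlt : (exp (-(1 : ℤ)) : ℤᵐ⁰) < 1 := by
    rw [← exp_zero, exp_lt_exp]
    norm_num
  have hfP : Cong P f 0 := by
    have := hf1 P (Finset.mem_insert_self _ _)
    rw [if_pos rfl] at this
    unfold Cong
    rw [map_zero]
    exact lt_of_le_of_lt this hlt
  have hfP' : Cong (g⁻¹ • P) f 1 := by
    have := hf1 (g⁻¹ • P) (Finset.mem_insert_of_mem (Finset.mem_singleton_self _))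
    rw [if_neg hne] at this
    unfold Cong
    rw [map_one]
    exact lt_of_le_of_lt this hlt
  have hfR : f ∈ finRing K x := by
    intro v hv
    by_cases hvS : v ∈ ({P, g⁻¹ • P} : Finset (Place K F))
    · rw [Finset.mem_insert, Finset.mem_singleton] at hvS
      rcases hvS with rfl | rfl
      · exact hfP.le_one
      · exact hfP'.le_one
    · refine hf2 v hvS ?_
      rintro rfl
      exact absurd hv (not_le.mpr hP₀')
  have h1 := cong_smul_of_mem_finRing g r hbase R₀ hfix hspan P hrat hfR hfP
  have h2 := (cong_inv_smul_iff g P f 1).mp hfP'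
  rw [hbase, one_pow] at h2
  have h3 := h1.unique h2
  rw [zero_pow_eq] at h3
  split_ifs at h3 with hr
  · -- `r = 0`: then `c ^ 0 = 1` is the base automorphism, absurd at `c = 0`
    have := hbase 0
    rw [map_zero, hr, pow_zero] at this
    exact zero_ne_one this
  · exact zero_ne_one h3

include hbase hfix hspan hrat in
/-- **The twist at a rational point**: `f ≡ c` at `P` implies `g f ≡ c ^ r` at `P`. -/
theorem cong_smul (h : IsFF1 K F x) (hgx : g • x = x) (hP : P.adicValuation x ≤ 1)
    {f : F} {c : K} (hc : Cong P f c) : Cong P (g • f) (c ^ r) := by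
  have hPP := inv_smul_place_eq g r hbase R₀ hfix hspan P hrat h hgx hP
  have := (cong_inv_smul_iff g P f c).mp (by rw [hPP]; exact hc)
  rwa [hbase] at this

end Twist

end Fermat.Agent.BAD.S35.NodeTwist
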