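/-
BAD / S35 (toric half): the Frobenius-square twist `(g', Φ, r) = (φ², Fr², ℓ²)`, modular
instance of the two sides of `NodalAsmTwist.toric_eigen_of_nodal_fibre_prod`.

`κ = modularFunctionFieldFullC k M` in characteristic `ℓ`, `Fr = frobAut k ℓ M` the coefficientwise
Frobenius, `frobSq k ℓ M : κ →+* κ` its square (as a ring endomorphism).

* special fibre (`cong_frobSq`): at a place `P` of `κ` which is an `𝔽_{ℓ²}`-point of a chart ring
  `finRing k t` (`t` a `Fr`-fixed coordinate; e.g. the nodes produced by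
  `SpecialFibre.exists_nodes_finRing`, whose characters lie in
  `points (ℓ ^ 2) (fixedSet k ℓ M (finRing k t))`), `f ≡ c` implies `Fr² f ≡ c ^ (ℓ²)`;
* generic fibre (`redPair_frobSq`, `frobSq_mem_OPair`, `frobSq_inv_mem_OPair`): for a Frobenius
  element `τ` at `ℓ` of the decomposition group of `A`, `g' = arithmeticGalois _ (τ * τ)`
  preserves `O = O_∞ ∩ O_0` (both directions) and
  `redPair (g' y) = (Fr² (redPair y).1, Fr² (redPair y).2)`.
-/
import Mathlib
import Fermat.Agent.BAD.S35.FrobPair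
import Fermat.Agent.BAD.S35.NodeTwist
import Fermat.Agent.BAD.SpecialFibre

set_option autoImplicit false

namespace Fermat.Agent.BAD.S35.FrobSq

open HahnSeries ModularCurve AlgebraicCurve WithZero
open Fermat.Agent.Lib.Red Fermat.Agent.Lib.FF
open Fermat.Agent.ESJ.Cong.FrobAut Fermat.Agent.BAD.TwoVal Fermat.Agent.BAD.KroneckerNodal
open Fermat.Agent.BAD.NodalPlaces Fermat.Agent.BAD.NodalRiemann Fermat.Agent.BAD.SpecialFibre

noncomputable section

/-! ### The square of the Frobenius of the special fibre -/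

section CharL

variable (k : Type*) [Field k] (ℓ : ℕ) [Fact ℓ.Prime] [CharP k ℓ] [PerfectRing k ℓ] (M : ℕ)

/-- `Fr²`, the coefficientwise `ℓ²`-power map of `κ`, as a ring endomorphism. -/
def frobSq : modularFunctionFieldFullC k M →+* modularFunctionFieldFullC k M :=
  (SemilinearAut.toRingAut (frobAut k ℓ M * frobAut k ℓ M)).toRingHom

theorem frobSq_apply (f : modularFunctionFieldFullC k M) :
    frobSq k ℓ M f = frobAut k ℓ M • frobAut k ℓ M • f := rfl

theorem frobSq_eq_smul (f : modularFunctionFieldFullC k M) :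
    frobSq k ℓ M f = (frobAut k ℓ M * frobAut k ℓ M) • f := rfl

theorem coe_frobSq (f : modularFunctionFieldFullC k M) :
    ((frobSq k ℓ M f : modularFunctionFieldFullC k M) : LaurentSeries k) =
      coeffMap ((frobenius k ℓ).comp (frobenius k ℓ)) (f : LaurentSeries k) := by
  rw [frobSq_apply, coe_frobAut_smul, coe_frobAut_smul, coeffMap_coeffMap]

theorem baseAut_frobSq (c : k) :
    SemilinearAut.baseAut (frobAut k ℓ M * frobAut k ℓ M) c = c ^ (ℓ ^ 2) := by
  rw [SemilinearAut.baseAut_mul, RingAut.mul_apply, baseAut_frobAut, frobeniusEquiv_def,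
    frobeniusEquiv_def, ← pow_mul, sq]

variable {k ℓ M}

/-- **The Frobenius-square twist at an `𝔽_{ℓ²}`-point of a chart ring.** -/
theorem cong_frobSq {t : modularFunctionFieldFullC k M}
    (hFt : IsFF1 k (modularFunctionFieldFullC k M) t) (ht : frobAut k ℓ M • t = t)
    (s : ↥(finRing k t) →ₐ[k] k) (hs : s ∈ points (ℓ ^ 2) (fixedSet k ℓ M (finRing k t)))
    (P : Place k (modularFunctionFieldFullC k M)) (hP : P.adicValuation t ≤ 1)
    (hPs : ∀ r : ↥(finRing k t), Cong P (r : modularFunctionFieldFullC k M) (s r))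
    {f : modularFunctionFieldFullC k M} {c : k} (hc : Cong P f c) :
    Cong P (frobSq k ℓ M f) (c ^ (ℓ ^ 2)) := by
  rw [frobSq_eq_smul]
  refine NodeTwist.cong_smul (frobAut k ℓ M * frobAut k ℓ M) (ℓ ^ 2) (baseAut_frobSq k ℓ M)
    {f | ∃ hf : f ∈ finRing k t, (⟨f, hf⟩ : ↥(finRing k t)) ∈ fixedSet k ℓ M (finRing k t)}
    ?_ ?_ P ?_ hFt ?_ hP hc
  · rintro f ⟨hf, hfix⟩
    rw [mem_fixedSet] at hfix
    rw [mul_smul]
    show frobAut k ℓ M • frobAut k ℓ M • f = f
    have hfix' : frobAut k ℓ M • f = f := hfix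
    rw [hfix', hfix']
  · intro f hf
    have hspan := span_fixedSet (finRing k t) (exists_stable_finRing hFt ht)
    have hmem : (⟨f, hf⟩ : ↥(finRing k t)) ∈
        Submodule.span k (fixedSet k ℓ M (finRing k t)) := by
      rw [hspan]
      exact Submodule.mem_top
    have h2 := Submodule.apply_mem_span_image_of_mem_span
      (finRing k t).val.toLinearMap hmem
    refine Submodule.span_mono ?_ h2
    rintro _ ⟨r, hr, rfl⟩
    exact ⟨r.2, hr⟩
  · rintro f ⟨hf, hfix⟩
    exact ⟨s ⟨f, hf⟩, hPs ⟨f, hf⟩, hs _ hfix⟩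
  · rw [mul_smul, ht, ht]

/-- The same from the rationality clause exported by `ChartNodes.exists_chart_nodes_of_points`:
every `Fr`-fixed chart function takes an `𝔽_{ℓ²}`-value at `P`. -/
theorem cong_frobSq_of_rat {t : modularFunctionFieldFullC k M}
    (hFt : IsFF1 k (modularFunctionFieldFullC k M) t) (ht : frobAut k ℓ M • t = t)
    (P : Place k (modularFunctionFieldFullC k M)) (hP : P.adicValuation t ≤ 1)
    (hrat : ∀ f ∈ finRing k t, frobAut k ℓ M • f = f → ∃ c : k, c ^ (ℓ ^ 2) = c ∧ Cong P f c)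
    {f : modularFunctionFieldFullC k M} {c : k} (hc : Cong P f c) :
    Cong P (frobSq k ℓ M f) (c ^ (ℓ ^ 2)) := by
  rw [frobSq_eq_smul]
  refine NodeTwist.cong_smul (frobAut k ℓ M * frobAut k ℓ M) (ℓ ^ 2) (baseAut_frobSq k ℓ M)
    {f | f ∈ finRing k t ∧ frobAut k ℓ M • f = f} ?_ ?_ P ?_ hFt ?_ hP hc
  · rintro f ⟨-, hfix⟩
    rw [mul_smul, hfix, hfix]
  · intro f hf
    have hspan := span_fixedSet (finRing k t) (exists_stable_finRing hFt ht)
    have hmem : (⟨f, hf⟩ : ↥(finRing k t)) ∈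
        Submodule.span k (fixedSet k ℓ M (finRing k t)) := by
      rw [hspan]
      exact Submodule.mem_top
    have h2 := Submodule.apply_mem_span_image_of_mem_span
      (finRing k t).val.toLinearMap hmem
    refine Submodule.span_mono ?_ h2
    rintro _ ⟨r, hr, rfl⟩
    exact ⟨r.2, hr⟩
  · rintro f ⟨hf, hfix⟩
    obtain ⟨c, hc1, hc2⟩ := hrat f hf hfix
    exact ⟨c, hc2, hc1⟩
  · rw [mul_smul, ht, ht]

/-- **The Frobenius-square twist at the nodes**, in the shape of the hypotheses `hφ₁`, `hφ₂` of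
`NodalAsmTwist.toric_eigen_of_nodal_fibre_prod` (`r = ℓ ^ 2`, `φ₁ = φ₂ = frobSq k ℓ M`), from the
rationality clause of `ChartNodes.exists_chart_nodes_of_points`. -/
theorem cong_frobSq_nodes {t : modularFunctionFieldFullC k M}
    (hFt : IsFF1 k (modularFunctionFieldFullC k M) t) (ht : frobAut k ℓ M • t = t)
    {ι : Type*} (e₁ e₂ : ι → Place k (modularFunctionFieldFullC k M))
    (hf₁ : ∀ i, (e₁ i).adicValuation t ≤ 1) (hf₂ : ∀ i, (e₂ i).adicValuation t ≤ 1)
    (hrat : ∀ i, ∀ f ∈ finRing k t, frobAut k ℓ M • f = f →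
      ∃ c : k, c ^ (ℓ ^ 2) = c ∧ Cong (e₁ i) f c ∧ Cong (e₂ i) f (c ^ ℓ)) :
    (∀ i (f : modularFunctionFieldFullC k M) (c : k), Cong (e₁ i) f c →
      Cong (e₁ i) (frobSq k ℓ M f) (c ^ (ℓ ^ 2))) ∧
    (∀ i (f : modularFunctionFieldFullC k M) (c : k), Cong (e₂ i) f c →
      Cong (e₂ i) (frobSq k ℓ M f) (c ^ (ℓ ^ 2))) := by
  refine ⟨fun i f c hc => ?_, fun i f c hc => ?_⟩
  · refine cong_frobSq_of_rat hFt ht (e₁ i) (hf₁ i) (fun g hg hfix => ?_) hc
    obtain ⟨c', h1, h2, -⟩ := hrat i g hg hfix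
    exact ⟨c', h1, h2⟩
  · refine cong_frobSq_of_rat hFt ht (e₂ i) (hf₂ i) (fun g hg hfix => ?_) hc
    obtain ⟨c', h1, -, h3⟩ := hrat i g hg hfix
    refine ⟨c' ^ ℓ, ?_, h3⟩
    rw [← pow_mul, mul_comm, pow_mul, h1]

end CharL

/-! ### The generic fibre: the square of a Frobenius element -/

section Bad

variable {L : Type*} [Field L] [Algebra ℚ L] {A : ValuationSubring L} {k : Type} [Field k]
  {π : A →+* k} {M ℓ : ℕ} [NeZero M] [NeZero ℓ]
  {W : laurentBaseChange L (modularFunctionFieldFull (M * ℓ)) ≃ₐ[L]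
    laurentBaseChange L (modularFunctionFieldFull (M * ℓ))}
  [Fact ℓ.Prime] [CharP k ℓ] [PerfectRing k ℓ]

omit [NeZero M] [NeZero ℓ] in
/-- The square of a Frobenius element at `ℓ` induces `x ↦ x ^ (ℓ²)` on the residue field. -/
theorem resCompat_frobSq (h : BadSetup A π M ℓ) {τ : L ≃ₐ[ℚ] L} (hτ : A.IsFrobeniusAt τ ℓ) :
    FrobPair.ResCompat A π ((τ * τ : L ≃ₐ[ℚ] L) : L →+* L)
      (((frobeniusEquiv k ℓ * frobeniusEquiv k ℓ : k ≃+* k)) : k →+* k) := by
  have h1 : FrobPair.ResCompat A π (τ : L →+* L) ((frobeniusEquiv k ℓ : k ≃+* k) : k →+* k) :=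
    FrobPair.resCompat_of_isFrobeniusAt h.hπ hτ _ (fun x => frobeniusEquiv_def k ℓ x)
  exact h1.comp h1

omit [NeZero ℓ] [Fact ℓ.Prime] in
theorem mem_decomposition_frobSq {τ : L ≃ₐ[ℚ] L} (hτ : A.IsFrobeniusAt τ ℓ) :
    τ * τ ∈ A.decompositionSubgroup ℚ :=
  mul_mem hτ.mem_decompositionSubgroup hτ.mem_decompositionSubgroup

/-- `g' = arithmeticGalois (τ²)` preserves `O`. -/
theorem frobSq_mem_OPair (h : BadSetup A π M ℓ) (hW : IsAL M ℓ W) {τ : L ≃ₐ[ℚ] L}
    (hτ : A.IsFrobeniusAt τ ℓ)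
    {f : laurentBaseChange L (modularFunctionFieldFull (M * ℓ))} (hf : f ∈ OPair h W) :
    arithmeticGalois (modularFunctionFieldFull (M * ℓ)) (τ * τ) • f ∈ OPair h W :=
  FrobPair.galois_mem_OPair h hW (resCompat_frobSq h hτ) hf

/-- `g'⁻¹` preserves `O`. -/
theorem frobSq_inv_mem_OPair (h : BadSetup A π M ℓ) (hW : IsAL M ℓ W) {τ : L ≃ₐ[ℚ] L}
    (hτ : A.IsFrobeniusAt τ ℓ)
    {f : laurentBaseChange L (modularFunctionFieldFull (M * ℓ))} (hf : f ∈ OPair h W) :
    (arithmeticGalois (modularFunctionFieldFull (M * ℓ)) (τ * τ))⁻¹ • f ∈ OPair h W :=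
  FrobPair.galois_inv_mem_OPair h hW (resCompat_frobSq h hτ) (mem_decomposition_frobSq hτ) hf

/-- **`redPair (g' y) = (Fr² (redPair y).1, Fr² (redPair y).2)`** for `g' = arithmeticGalois (τ²)`,
`τ` a Frobenius element at `ℓ` (the hypothesis `hgred` of
`NodalAsmTwist.toric_eigen_of_nodal_fibre_prod` with `φ₁ = φ₂ = frobSq k ℓ M`). -/
theorem redPair_frobSq (h : BadSetup A π M ℓ) (hW : IsAL M ℓ W) {τ : L ≃ₐ[ℚ] L}
    (hτ : A.IsFrobeniusAt τ ℓ) (y : OPair h W)
    (hy' : arithmeticGalois (modularFunctionFieldFull (M * ℓ)) (τ * τ) •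
      (y : laurentBaseChange L (modularFunctionFieldFull (M * ℓ))) ∈ OPair h W) :
    redPair h W ⟨arithmeticGalois (modularFunctionFieldFull (M * ℓ)) (τ * τ) •
        (y : laurentBaseChange L (modularFunctionFieldFull (M * ℓ))), hy'⟩ =
      (frobSq k ℓ M (redPair h W y).1, frobSq k ℓ M (redPair h W y).2) := by
  rw [FrobPair.redPair_galois h hW (resCompat_frobSq h hτ) y hy']
  refine Prod.ext (Subtype.ext ?_) (Subtype.ext ?_)
  · rw [coe_frobSq]
    exact coeffMap_congr (RingHom.ext fun _ => rfl) _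
  · rw [coe_frobSq]
    exact coeffMap_congr (RingHom.ext fun _ => rfl) _

end Bad

end

end Fermat.Agent.BAD.S35.FrobSq
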