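/-
BAD / S35, toric half (modular assembly): `φ² = q²` on the toric classes of `J₀(Mq)`.

`A` a valuation ring of `ℚ̄` over `q`, `π : A → k` its residue map, `h : BadSetup A π M q`,
`O = OPair h W`, `red = redPair h W : O → κ × κ`, `κ = F̄_M`.

* `NodalFrobAt h W` : the nodal special fibre of `X₀(Mq)` at `q` (the body of
  `BadU.NodalFibreBad` for one `(A, k, π, M, q, h, W)`), with Galois-invariant `E1`, `E2` and
  `𝔽_{q²}`-rational nodes (in the form: `f ≡ c` at a node implies `Fr² f ≡ c ^ (q²)` there).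
* `principal_frobSq` : for `τ` a Frobenius element at `q` and a degree-zero divisor `D` with a
  Kummer generator `G` (`m D = div G`) which is a unit of `O` with constant reduction,
  `τ² D - q² D` is principal.  (`NodalAsmTwist.toric_eigen_of_nodal_fibre_prod` with
  `(g', Φ, r) = (τ², Fr², q²)`, fed by `S35/FrobSq.lean`.)
* `frobSq_smul_eq_of_toric` : the same in `J₀(Mq)`: `τ • τ • y = q² • y`.
* `newFrob_of_toric` : if `y = τ²x - x` is toric, then `τ⁴x - (q² + 1) τ²x + q² x = 0`.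
* `FormalHalfAt h W p`, `newFrobAt_of_formal` : `LevelTransfer.NewFrobAt M q p A` from the formal
  half (`τ²x - x` is toric for `x` in the `p`-power torsion of `ker α_* ∩ ker β_*`).
-/
import Mathlib
import Fermat.Agent.BAD.S35.FrobSq
import Fermat.Agent.BAD.NodalAsmTwist
import Fermat.Agent.BAD.BadU
import Fermat.Agent.BAD.LevelTransfer

set_option autoImplicit false

namespace Fermat.Agent.BAD.S35.ToricFrob

open AlgebraicCurve ModularCurve Fermat.Agent.Lib.FF Fermat.Agent.Lib.Red.Deform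
  Fermat.Agent.Lib.Red.CoordLat Fermat.Agent.BAD.NodalDiv Fermat.Agent.BAD.NodalRiemann
  Fermat.Agent.BAD.TwoVal Fermat.Agent.BAD.NodalAsmTwist Fermat.Agent.BAD.S35.FrobSq
  Fermat.Agent.ESJ.Cong.FrobAut Fermat.Agent.ESJ.Cong Fermat.Agent.BAD

local notation "Qb" => AlgebraicClosure ℚ

noncomputable section

variable {A : ValuationSubring Qb} {k : Type} [Field k] {π : A →+* k}
  {M q : ℕ} [NeZero M] [NeZero q]
  {W : laurentBaseChange Qb (modularFunctionFieldFull (M * q)) ≃ₐ[Qb]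
    laurentBaseChange Qb (modularFunctionFieldFull (M * q))}

/-- **The nodal special fibre of `X₀(Mq)` at `q` with `𝔽_{q²}`-rational nodes**: the body of
`BadU.NodalFibreBad` for one `(A, k, π, M, q, h, W)`, with `E1`, `E2` invariant under the whole
Galois group and the Frobenius-square twist at the nodes. -/
def NodalFrobAt (h : BadSetup A π M q)
    (W : laurentBaseChange Qb (modularFunctionFieldFull (M * q)) ≃ₐ[Qb]
      laurentBaseChange Qb (modularFunctionFieldFull (M * q))) : Prop :=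
  ∃ (ι : Type) (_ : Fintype ι) (_ : Nonempty ι)
    (e₁ e₂ : ι → Place k (modularFunctionFieldFullC k M))
    (P₁ Z₁ P₂ Z₂ : Divisor k (modularFunctionFieldFullC k M))
    (E1 E2 : Divisor Qb (laurentBaseChange Qb (modularFunctionFieldFull (M * q)))),
    Function.Injective e₁ ∧ Function.Injective e₂ ∧
    (∀ i, P₁ (e₁ i) = 0) ∧ (∀ i, Z₁ (e₁ i) = 0) ∧ (∀ i, P₂ (e₂ i) = 0) ∧ (∀ i, Z₂ (e₂ i) = 0) ∧
    (∀ v, P₁ v = 0 ∨ Z₁ v = 0) ∧ (∀ v, P₂ v = 0 ∨ Z₂ v = 0) ∧
    0 < Divisor.degree P₁ ∧ 0 < Divisor.degree P₂ ∧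
    (∀ v, 0 ≤ E1 v) ∧ (∀ v, 0 ≤ E2 v) ∧ (∀ v, E1 v = 0 ∨ E2 v = 0) ∧
    0 < Divisor.degree E1 ∧ 0 < Divisor.degree E2 ∧
    (∀ σ : Qb ≃ₐ[ℚ] Qb,
      arithmeticGalois (modularFunctionFieldFull (M * q)) σ • E1 = E1 ∧
      arithmeticGalois (modularFunctionFieldFull (M * q)) σ • E2 = E2) ∧
    (∀ [Fact q.Prime] [CharP k q] [PerfectRing k q],
      (∀ i (f : modularFunctionFieldFullC k M) (c : k), Cong (e₁ i) f c →
        Cong (e₁ i) (frobSq k q M f) (c ^ (q ^ 2))) ∧
      (∀ i (f : modularFunctionFieldFullC k M) (c : k), Cong (e₂ i) f c →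
        Cong (e₂ i) (frobSq k q M f) (c ^ (q ^ 2)))) ∧
    ∃ N₀ : ℕ, ∀ n₁ n₂ : ℕ, N₀ ≤ n₁ + n₂ →
      ∀ t : ↥(modularFunctionFieldFullC k M) × ↥(modularFunctionFieldFullC k M),
        (∃ y : OPair h W,
            (y : laurentBaseChange Qb (modularFunctionFieldFull (M * q))) ∈
              riemannRochSpace (n₁ • E1 + n₂ • E2) ∧ redPair h W y = t) ↔
          t ∈ gluedSpace e₁ e₂ (fun _ => (1 : k))
            (n₁ • P₁ + n₂ • Z₁) (n₁ • P₂ + n₂ • Z₂)

omit [NeZero M] [NeZero q] in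
/-- `Fr²` on constants. -/
theorem frobSq_algebraMap [Fact q.Prime] [CharP k q] [PerfectRing k q] (d : k) :
    frobSq k q M (algebraMap k (modularFunctionFieldFullC k M) d) =
      algebraMap k (modularFunctionFieldFullC k M) d ^ (q ^ 2) := by
  rw [frobSq_eq_smul, SemilinearAut.smul_algebraMap, baseAut_frobSq, map_pow]

set_option maxHeartbeats 1000000 in
/-- **The toric eigenvalue at the divisor level**: `τ² D - q² D` is principal for a degree-zero
divisor `D` with a Kummer generator which is a unit of `O` with constant reduction. -/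
theorem principal_frobSq [IsAlgClosed k] (hπ : Function.Surjective π) (h : BadSetup A π M q)
    (hW : IsAL M q W)
    (hlat : ∀ B : Divisor Qb (laurentBaseChange Qb (modularFunctionFieldFull (M * q))),
      HasOrtho A (OPair h W) (riemannRochSpace B))
    (hnod : NodalFrobAt h W) (m : ℕ) (hm : (m : k) ≠ 0)
    (τ : Qb ≃ₐ[ℚ] Qb) (hτ : A.IsFrobeniusAt τ q)
    (D : Divisor Qb (laurentBaseChange Qb (modularFunctionFieldFull (M * q))))
    (hD : Divisor.degree D = 0)
    (G : laurentBaseChange Qb (modularFunctionFieldFull (M * q))) (hG : G ≠ 0)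
    (hdiv : ∀ P : Place Qb (laurentBaseChange Qb (modularFunctionFieldFull (M * q))),
      (m : ℤ) * D P = P.ord G)
    (hGO : G ∈ OPair h W) (hGO' : G⁻¹ ∈ OPair h W) (c₁ c₂ : k)
    (hred : redPair h W ⟨G, hGO⟩ =
      (algebraMap k (modularFunctionFieldFullC k M) c₁,
        algebraMap k (modularFunctionFieldFullC k M) c₂)) :
    ∃ φ : laurentBaseChange Qb (modularFunctionFieldFull (M * q)), φ ≠ 0 ∧
      ∀ P : Place Qb (laurentBaseChange Qb (modularFunctionFieldFull (M * q))),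
        (arithmeticGalois (modularFunctionFieldFull (M * q)) (τ * τ) • D - (q ^ 2) • D) P
          = P.ord φ := by
  have : Fact q.Prime := ⟨h.hℓ⟩
  have : CharP k q := h.charP
  obtain ⟨ι, _, _, e₁, e₂, P₁, Z₁, P₂, Z₂, E1, E2, hinj₁, hinj₂, hP₁, hZ₁, hP₂, hZ₂, hd₁, hd₂,
    hdegP₁, hdegP₂, hE1, hE2, hdisj, hdegE1, hdegE2, hgalE, htw, N₀, hS2⟩ := hnod
  obtain ⟨hφ₁, hφ₂⟩ := htw
  have hm0 : m ≠ 0 := by
    rintro rfl
    exact hm Nat.cast_zero
  have hmA : A.valuation ((m : ℕ) : Qb) = 1 := h.valuation_natCast_eq_one m hm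
  -- the reduction of `G` is a pair of nonzero constants
  have e2 : (⟨G, hGO⟩ : OPair h W) * ⟨G⁻¹, hGO'⟩ = 1 := Subtype.ext (mul_inv_cancel₀ hG)
  have e3 : redPair h W ⟨G, hGO⟩ * redPair h W ⟨G⁻¹, hGO'⟩ = 1 := by
    rw [← map_mul, e2, map_one]
  have hc₁ : c₁ ≠ 0 := by
    rintro rfl
    have := congrArg Prod.fst e3
    rw [hred] at this
    simp at this
  have hc₂ : c₂ ≠ 0 := by
    rintro rfl
    have := congrArg Prod.snd e3
    rw [hred] at this
    simp at this
  obtain ⟨d₁, hd₁'⟩ := IsAlgClosed.exists_pow_nat_eq c₁ (Nat.pos_of_ne_zero hm0)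
  obtain ⟨d₂, hd₂'⟩ := IsAlgClosed.exists_pow_nat_eq c₂ (Nat.pos_of_ne_zero hm0)
  have hd₁0 : d₁ ≠ 0 := by
    rintro rfl
    rw [zero_pow hm0] at hd₁'
    exact hc₁ hd₁'.symm
  have hd₂0 : d₂ ≠ 0 := by
    rintro rfl
    rw [zero_pow hm0] at hd₂'
    exact hc₂ hd₂'.symm
  have hconst : ∀ a : A, redPair h W ⟨algebraMap Qb
        ↥(laurentBaseChange Qb (modularFunctionFieldFull (M * q))) (a : Qb),
        (OPair_hOA h _).2 a.2⟩ = algebraMap k (↥(modularFunctionFieldFullC k M) ×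
        ↥(modularFunctionFieldFullC k M)) (π a) := fun a => (redPair_algebraMap h a _).trans rfl
  exact toric_eigen_of_nodal_fibre_prod (A := A) (O := OPair h W) (fun x => OPair_hOA h x)
    (OPair_hval h) h.harch (redPair h W) π hπ h.pi_eq_zero_iff
    hconst (redPair_eq_zero_iff h) m hmA
    (isFF1_xL Qb (M * q)) (isFF1_xk k M) (isFF1_xk k M) e₁ e₂ hinj₁ hinj₂ P₁ Z₁ P₂ Z₂
    hP₁ hZ₁ hP₂ hZ₂ hd₁ hd₂ hdegP₁ hdegP₂ E1 E2 hE1 hE2 hdisj hdegE1 hdegE2
    hlat
    ⟨N₀, fun n₁ n₂ hl => Submodule.ext fun t => by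
      have e : VB 0 E1 E2 n₁ n₂ = riemannRochSpace (n₁ • E1 + n₂ • E2) := by
        unfold VB
        rw [zero_add]
      rw [e]
      exact hS2 n₁ n₂ hl t⟩
    (q ^ 2) (pow_pos h.hℓ.pos 2) (frobSq k q M) (frobSq k q M) hφ₁ hφ₂
    (arithmeticGalois (modularFunctionFieldFull (M * q)) (τ * τ))
    (fun y hy => frobSq_mem_OPair h hW hτ hy)
    (fun y hy => frobSq_inv_mem_OPair h hW hτ hy)
    (fun y hy' => redPair_frobSq h hW hτ y hy')
    (hgalE (τ * τ)).1 (hgalE (τ * τ)).2
    D hD G hG hdiv hGO hGO'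
    (algebraMap k ↥(modularFunctionFieldFullC k M) d₁,
      algebraMap k ↥(modularFunctionFieldFullC k M) d₂)
    (algebraMap k ↥(modularFunctionFieldFullC k M) d₁⁻¹,
      algebraMap k ↥(modularFunctionFieldFullC k M) d₂⁻¹)
    (by
      refine Prod.ext ?_ ?_
      · show algebraMap k ↥(modularFunctionFieldFullC k M) d₁ *
          algebraMap k ↥(modularFunctionFieldFullC k M) d₁⁻¹ = 1
        rw [← map_mul, mul_inv_cancel₀ hd₁0, map_one]
      · show algebraMap k ↥(modularFunctionFieldFullC k M) d₂ *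
          algebraMap k ↥(modularFunctionFieldFullC k M) d₂⁻¹ = 1
        rw [← map_mul, mul_inv_cancel₀ hd₂0, map_one])
    (by
      rw [hred]
      refine Prod.ext ?_ ?_
      · show algebraMap k ↥(modularFunctionFieldFullC k M) d₁ ^ m = _
        rw [← map_pow, hd₁']
      · show algebraMap k ↥(modularFunctionFieldFullC k M) d₂ ^ m = _
        rw [← map_pow, hd₂'])
    (by
      refine Prod.ext ?_ ?_
      · exact frobSq_algebraMap d₁
      · exact frobSq_algebraMap d₂)

/-- **`τ² = q²` on toric classes of `J₀(Mq)`.** -/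
theorem frobSq_smul_eq_of_toric [IsAlgClosed k] (hπ : Function.Surjective π)
    (h : BadSetup A π M q) (hW : IsAL M q W)
    (hlat : ∀ B : Divisor Qb (laurentBaseChange Qb (modularFunctionFieldFull (M * q))),
      HasOrtho A (OPair h W) (riemannRochSpace B))
    (hnod : NodalFrobAt h W) (m : ℕ) (hm : (m : k) ≠ 0)
    (τ : Qb ≃ₐ[ℚ] Qb) (hτ : A.IsFrobeniusAt τ q)
    (D : Divisor.degZero (K := Qb) (F := laurentBaseChange Qb (modularFunctionFieldFull (M * q))))
    (G : laurentBaseChange Qb (modularFunctionFieldFull (M * q))) (hG : G ≠ 0)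
    (hdiv : ∀ P : Place Qb (laurentBaseChange Qb (modularFunctionFieldFull (M * q))),
      (m : ℤ) * (D : Divisor Qb (laurentBaseChange Qb (modularFunctionFieldFull (M * q)))) P
        = P.ord G)
    (hGO : G ∈ OPair h W) (hGO' : G⁻¹ ∈ OPair h W) (c₁ c₂ : k)
    (hred : redPair h W ⟨G, hGO⟩ =
      (algebraMap k (modularFunctionFieldFullC k M) c₁,
        algebraMap k (modularFunctionFieldFullC k M) c₂)) :
    τ • τ • (Pic0.mk D : JZero (M * q)) = (q ^ 2) • (Pic0.mk D : JZero (M * q)) := by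
  obtain ⟨φ, hφ, hφD⟩ := principal_frobSq hπ h hW hlat hnod m hm τ hτ
    (D : Divisor Qb (laurentBaseChange Qb (modularFunctionFieldFull (M * q)))) D.2 G hG hdiv
    hGO hGO' c₁ c₂ hred
  rw [← mul_smul, ← sub_eq_zero, galois_smul_pic0_def, SemilinearAut.pic0_smul_mk]
  have key : Pic0.mk (SemilinearAut.degZeroSMulHom
        (arithmeticGalois (modularFunctionFieldFull (M * q)) (τ * τ)) D) - (q ^ 2) • Pic0.mk D
      = Pic0.mk (SemilinearAut.degZeroSMulHom
        (arithmeticGalois (modularFunctionFieldFull (M * q)) (τ * τ)) D - (q ^ 2) • D) := rfl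
  rw [key]
  apply (QuotientAddGroup.eq_zero_iff _).2
  refine ⟨φ, hφ, fun P => ?_⟩
  rw [← hφD P]
  rfl

/-- **The Frobenius relation from the toric half**: if `τ²x - x` is a toric class, then
`τ⁴x - (q² + 1) τ²x + q² x = 0`. -/
theorem newFrob_of_toric [IsAlgClosed k] (hπ : Function.Surjective π)
    (h : BadSetup A π M q) (hW : IsAL M q W)
    (hlat : ∀ B : Divisor Qb (laurentBaseChange Qb (modularFunctionFieldFull (M * q))),
      HasOrtho A (OPair h W) (riemannRochSpace B))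
    (hnod : NodalFrobAt h W) (m : ℕ) (hm : (m : k) ≠ 0)
    (τ : Qb ≃ₐ[ℚ] Qb) (hτ : A.IsFrobeniusAt τ q) (x : JZero (M * q))
    (D : Divisor.degZero (K := Qb) (F := laurentBaseChange Qb (modularFunctionFieldFull (M * q))))
    (hDx : (Pic0.mk D : JZero (M * q)) = τ • τ • x - x)
    (G : laurentBaseChange Qb (modularFunctionFieldFull (M * q))) (hG : G ≠ 0)
    (hdiv : ∀ P : Place Qb (laurentBaseChange Qb (modularFunctionFieldFull (M * q))),
      (m : ℤ) * (D : Divisor Qb (laurentBaseChange Qb (modularFunctionFieldFull (M * q)))) P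
        = P.ord G)
    (hGO : G ∈ OPair h W) (hGO' : G⁻¹ ∈ OPair h W) (c₁ c₂ : k)
    (hred : redPair h W ⟨G, hGO⟩ =
      (algebraMap k (modularFunctionFieldFullC k M) c₁,
        algebraMap k (modularFunctionFieldFullC k M) c₂)) :
    τ • τ • τ • τ • x - (q ^ 2 + 1) • (τ • τ • x) + q ^ 2 • x = 0 := by
  have key := frobSq_smul_eq_of_toric hπ h hW hlat hnod m hm τ hτ D G hG hdiv hGO hGO' c₁ c₂ hred
  rw [hDx, smul_sub, smul_sub, nsmul_sub] at key
  have e : τ • τ • τ • τ • x = q ^ 2 • (τ • τ • x) - q ^ 2 • x + τ • τ • x := by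
    rw [← key]
    abel
  rw [e, add_smul, one_smul]
  abel

/-- **The formal half of S35** for one `(A, k, π, M, q, h, W)` and the prime `p`: for `x` in the
`p`-power torsion of `ker α_* ∩ ker β_*` and a Frobenius element `τ` at `q`, the class `τ²x - x`
is toric (it has a Kummer generator which is a unit of `O` with constant reduction). -/
def FormalHalfAt (h : BadSetup A π M q)
    (W : laurentBaseChange Qb (modularFunctionFieldFull (M * q)) ≃ₐ[Qb]
      laurentBaseChange Qb (modularFunctionFieldFull (M * q))) (p : ℕ) : Prop :=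
  ∀ τ : Qb ≃ₐ[ℚ] Qb, A.IsFrobeniusAt τ q → ∀ (n : ℕ) (x : JZero (M * q)), p ^ n • x = 0 →
    levelPushAlpha M q x = 0 → levelPushBeta M q x = 0 →
    ∃ (D : Divisor.degZero (K := Qb)
        (F := laurentBaseChange Qb (modularFunctionFieldFull (M * q))))
      (G : laurentBaseChange Qb (modularFunctionFieldFull (M * q))),
      (Pic0.mk D : JZero (M * q)) = τ • τ • x - x ∧ G ≠ 0 ∧
      (∀ P : Place Qb (laurentBaseChange Qb (modularFunctionFieldFull (M * q))),
        (((p ^ n : ℕ)) : ℤ) *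
          (D : Divisor Qb (laurentBaseChange Qb (modularFunctionFieldFull (M * q)))) P
            = P.ord G) ∧
      ∃ hGO : G ∈ OPair h W, G⁻¹ ∈ OPair h W ∧ ∃ c₁ c₂ : k,
        redPair h W ⟨G, hGO⟩ =
          (algebraMap k (modularFunctionFieldFullC k M) c₁,
            algebraMap k (modularFunctionFieldFullC k M) c₂)

/-- **`NewFrobAt M q p A` from the nodal fibre, the lattices and the formal half.** -/
theorem newFrobAt_of_formal [IsAlgClosed k] (hπ : Function.Surjective π)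
    (h : BadSetup A π M q) (hW : IsAL M q W)
    (hlat : ∀ B : Divisor Qb (laurentBaseChange Qb (modularFunctionFieldFull (M * q))),
      HasOrtho A (OPair h W) (riemannRochSpace B))
    (hnod : NodalFrobAt h W) (p : ℕ) (hp : p.Prime) (hqp : q ≠ p)
    (hformal : FormalHalfAt h W p) : NewFrobAt M q p A := by
  intro τ hτ x hx hα hβ
  obtain ⟨n, hx⟩ := hx
  obtain ⟨D, G, hDx, hG, hdiv, hGO, hGO', c₁, c₂, hred⟩ := hformal τ hτ n x hx hα hβ
  have hm : (((p ^ n : ℕ)) : k) ≠ 0 := by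
    have := h.charP
    rw [Nat.cast_pow]
    refine pow_ne_zero n fun h0 => ?_
    exact hqp ((Nat.prime_dvd_prime_iff_eq h.hℓ hp).1 ((CharP.cast_eq_zero_iff k q p).1 h0))
  exact newFrob_of_toric hπ h hW hlat hnod (p ^ n) hm τ hτ x D hDx G hG hdiv hGO hGO' c₁ c₂ hred

end

end Fermat.Agent.BAD.S35.ToricFrob
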