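import Mathlib
import Fermat.Agent.BAD.S35Of
import Fermat.Agent.BAD.LevelTransfer
import Fermat.Agent.ESJ.Rep.TateLevelBad
import Fermat.Agent.ESJ.Rep.FrobDens
import Fermat.Agent.ESJ.Jac.Main
import Fermat.Agent.ESJ.RedK.GoodRed
import Fermat.Agent.BAD.S35.FormalInst
import Fermat.Agent.BAD.S35.ToricFrob

/-!
# BAD / S35 — final assembly

The frozen statement S35 from the single remaining geometric input, the new-part Frobenius
relation `LevelTransfer.NewFrobAt N' q p A` at the GOOD pairs (`q ≥ 5`, or `q = 3`, `2 ∣ N'`, or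
`q = 2`, `3 ∣ N'`):

* the trunk inputs `(K)` (`ESJ.kummerCmp`) and `(E)` (`ESJ.RedK.torsionESRelation`),
* `LevelTransfer.torsionNewFrob_of_good` (residue characteristics `2`, `3` by level transfer),
* `TateLevel.tateCmpABadExists_of_trunk`, `BAD.S35_of`, Frobenius density.
-/

set_option autoImplicit false

namespace Fermat.Agent.BAD.S35.Final

open Polynomial CuspForm CuspForm.IsNewform Fermat.Agent.BAD ModularCurve AlgebraicCurve
open Fermat.Agent.BAD.TwoVal Fermat.Agent.BAD.S35.ToricFrob Fermat.Agent.Lib.FF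

local notation "Qb" => AlgebraicClosure ℚ

/-- **The new-part Frobenius relation at one place**, from the nodal fibre with
`𝔽_{q²}`-rational nodes: the lattices (`BadU.latAt`), the formal half (`FormalInst.formal_half`)
and the toric half (`ToricFrob.newFrobAt_of_formal`). -/
theorem newFrobAt_of_nodalFrobAt {A : ValuationSubring Qb} {k : Type} [Field k] [IsAlgClosed k]
    {π : A →+* k} (hπ : Function.Surjective π) {M q : ℕ} [NeZero M] [NeZero q]
    (h : BadSetup A π M q)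
    (hNod : ∀ W : laurentBaseChange Qb (modularFunctionFieldFull (M * q)) ≃ₐ[Qb]
      laurentBaseChange Qb (modularFunctionFieldFull (M * q)), IsAL M q W → NodalFrobAt h W)
    (p : ℕ) (hp : p.Prime) (hqp : q ≠ p) : NewFrobAt M q p A := by
  obtain ⟨W, hW⟩ := BadU.exists_isAL_Qb h
  exact newFrobAt_of_formal hπ h hW (BadU.latAt hπ h W hW) (hNod W hW) p hp hqp
    (fun τ hτ n x hx hα hβ =>
      FormalInst.formal_half h hπ hW (p ^ n) (pow_pos hp.pos n) x hx hα hβ τ hτ)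

/-- **The new-part Frobenius relation at the good pairs**, from the nodal fibres with
`𝔽_{q²}`-rational nodes at the good pairs (residue-field form). -/
theorem newFrobAt_good_of_nodalFrob
    (hNod : ∀ (A : ValuationSubring Qb) (M q : ℕ) [NeZero M] [NeZero q]
      (h : BadSetup A (IsLocalRing.residue A) M q), A.LiesOverPrime q →
      (5 ≤ q ∨ (q = 3 ∧ 2 ∣ M) ∨ (q = 2 ∧ 3 ∣ M)) →
      ∀ W : laurentBaseChange Qb (modularFunctionFieldFull (M * q)) ≃ₐ[Qb]
        laurentBaseChange Qb (modularFunctionFieldFull (M * q)), IsAL M q W → NodalFrobAt h W)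
    (p : ℕ) (hp : p.Prime) (N' q : ℕ) [NeZero N'] [NeZero q] (hq : q.Prime) (hqN' : ¬ q ∣ N')
    (hqp : q ≠ p) (hgood : 5 ≤ q ∨ (q = 3 ∧ 2 ∣ N') ∨ (q = 2 ∧ 3 ∣ N'))
    (A : ValuationSubring Qb) (hA : A.LiesOverPrime q) : NewFrobAt N' q p A := by
  have : IsAlgClosed (IsLocalRing.ResidueField A) := CharP.isAlgClosed_residueField A
  have hπ0 : ∀ a : A, ¬ IsUnit a → IsLocalRing.residue A a = 0 := fun a ha =>
    (IsLocalRing.residue_eq_zero_iff a).mpr ((IsLocalRing.mem_maximalIdeal a).mpr ha)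
  have h : BadSetup A (IsLocalRing.residue A) N' q :=
    badSetup_of_liesOver A _ hπ0 N' q hq hA hqN'
  exact newFrobAt_of_nodalFrobAt IsLocalRing.residue_surjective h (hNod A N' q h hA hgood) p hp hqp

/-- The bad-prime Tate data from the new-part Frobenius relation at the good pairs. -/
theorem tateCmpABadExists_of_good
    (h : ∀ (p : ℕ), p.Prime → ∀ (N' q : ℕ) [NeZero N'] [NeZero q], q.Prime → ¬ q ∣ N' → q ≠ p →
      (5 ≤ q ∨ (q = 3 ∧ 2 ∣ N') ∨ (q = 2 ∧ 3 ∣ N')) →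
      ∀ A : ValuationSubring Qb, A.LiesOverPrime q → NewFrobAt N' q p A) :
    TateCmpABadExists :=
  Fermat.Agent.ESJ.Rep.TateLevel.tateCmpABadExists_of_trunk
    (fun N p _ hp => Fermat.Agent.ESJ.kummerCmp N p hp.pos)
    (fun N p _ _ => Fermat.Agent.ESJ.RedK.torsionESRelation N p)
    (fun N N' q p _ _ hp hq hqp hN hqN' => torsionNewFrob_of_good h N N' q p hp hq hqp hN hqN')

/-- **S35 from the new-part Frobenius relation at the good pairs.** -/
theorem s35_of_good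
    (h : ∀ (p : ℕ), p.Prime → ∀ (N' q : ℕ) [NeZero N'] [NeZero q], q.Prime → ¬ q ∣ N' → q ≠ p →
      (5 ≤ q ∨ (q = 3 ∧ 2 ∣ N') ∨ (q = 2 ∧ 3 ∣ N')) →
      ∀ A : ValuationSubring Qb, A.LiesOverPrime q → NewFrobAt N' q p A)
    {M : ℕ} [NeZero M] {g : CuspForm (CongruenceSubgroup.Gamma0 M) 2} (hg : g.IsNewform)
    (lam : ℕ) [Fact lam.Prime]
    (S : Finset ℕ)
    (O' : Type) [CommRing O'] [IsDomain O'] [IsDiscreteValuationRing O']
    [IsAdicComplete (IsLocalRing.maximalIdeal O') O'] [Finite (IsLocalRing.ResidueField O')]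
    [CharZero O'] (hlamO' : (lam : O') ∈ IsLocalRing.maximalIdeal O')
    (chig : CuspForm.heckeAlgebra M 2 (↑S : Set ℕ) →+* ℂ)
    (hchig : ∀ (ℓ : ℕ) (hℓ : ℓ.Prime) (hℓM : ¬ ℓ ∣ M) (hℓS : ℓ ∉ (↑S : Set ℕ)),
      chig (CuspForm.heckeAlgebra.T hℓ hℓM hℓS) = ModularFormClass.qCoeff g ℓ)
    (iota : chig.range →+* O')
    (hlamS : lam ∈ S) (hMS : ∀ q : ℕ, q.Prime → q ∣ M → q ∈ S) :
    ∃ (O'' : Type) (_ : CommRing O'') (_ : IsDomain O'') (_ : IsDiscreteValuationRing O'')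
      (_ : IsAdicComplete (IsLocalRing.maximalIdeal O'') O'') (_ : Finite (IsLocalRing.ResidueField O''))
      (_ : CharZero O'') (_ : Algebra O' O'') (_ : Module.Finite O' O'') (_ : IsLocalHom (algebraMap O' O'')),
      Function.Injective (algebraMap O' O'') ∧
      ∃ ρ : GaloisRepAdic O'',
        (∀ (ℓ : ℕ) (hℓ : ℓ.Prime) (hℓM : ¬ ℓ ∣ M) (hℓS : ℓ ∉ (↑S : Set ℕ)),
          ∀ A : ValuationSubring (AlgebraicClosure ℚ), A.LiesOverPrime ℓ →
            ∀ σ : AlgebraicClosure ℚ ≃ₐ[ℚ] AlgebraicClosure ℚ, A.IsFrobeniusAt σ ℓ →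
              LinearMap.charpoly (ρ.ρ σ) =
                X ^ 2 - C (algebraMap O' O'' ((iota.comp chig.rangeRestrict) (CuspForm.heckeAlgebra.T hℓ hℓM hℓS))) * X
                  + C ((ℓ : O''))) ∧
        (∀ q : ℕ, q.Prime → q ≠ lam → q ∣ M → ¬ q ^ 2 ∣ M →
          ∀ A : ValuationSubring (AlgebraicClosure ℚ), A.LiesOverPrime q →
            ∀ σ : AlgebraicClosure ℚ ≃ₐ[ℚ] AlgebraicClosure ℚ, A.IsFrobeniusAt σ q →
              LinearMap.charpoly (ρ.ρ σ) = X ^ 2 - C ((q : O'') + 1) * X + C ((q : O'')) ∨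
              LinearMap.charpoly (ρ.ρ σ) = X ^ 2 + C ((q : O'') + 1) * X + C ((q : O''))) :=
  S35_of Fermat.Agent.ESJ.Rep.frobDensity (tateCmpABadExists_of_good h) hg lam S O' hlamO' chig
    hchig iota hlamS hMS

/-- **S35 from the nodal fibres with `𝔽_{q²}`-rational nodes at the good pairs.** -/
theorem s35_of_nodalFrob
    (hNod : ∀ (A : ValuationSubring Qb) (M q : ℕ) [NeZero M] [NeZero q]
      (h : BadSetup A (IsLocalRing.residue A) M q), A.LiesOverPrime q →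
      (5 ≤ q ∨ (q = 3 ∧ 2 ∣ M) ∨ (q = 2 ∧ 3 ∣ M)) →
      ∀ W : laurentBaseChange Qb (modularFunctionFieldFull (M * q)) ≃ₐ[Qb]
        laurentBaseChange Qb (modularFunctionFieldFull (M * q)), IsAL M q W → NodalFrobAt h W)
    {M : ℕ} [NeZero M] {g : CuspForm (CongruenceSubgroup.Gamma0 M) 2} (hg : g.IsNewform)
    (lam : ℕ) [Fact lam.Prime]
    (S : Finset ℕ)
    (O' : Type) [CommRing O'] [IsDomain O'] [IsDiscreteValuationRing O']
    [IsAdicComplete (IsLocalRing.maximalIdeal O') O'] [Finite (IsLocalRing.ResidueField O')]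
    [CharZero O'] (hlamO' : (lam : O') ∈ IsLocalRing.maximalIdeal O')
    (chig : CuspForm.heckeAlgebra M 2 (↑S : Set ℕ) →+* ℂ)
    (hchig : ∀ (ℓ : ℕ) (hℓ : ℓ.Prime) (hℓM : ¬ ℓ ∣ M) (hℓS : ℓ ∉ (↑S : Set ℕ)),
      chig (CuspForm.heckeAlgebra.T hℓ hℓM hℓS) = ModularFormClass.qCoeff g ℓ)
    (iota : chig.range →+* O')
    (hlamS : lam ∈ S) (hMS : ∀ q : ℕ, q.Prime → q ∣ M → q ∈ S) :
    ∃ (O'' : Type) (_ : CommRing O'') (_ : IsDomain O'') (_ : IsDiscreteValuationRing O'')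
      (_ : IsAdicComplete (IsLocalRing.maximalIdeal O'') O'') (_ : Finite (IsLocalRing.ResidueField O''))
      (_ : CharZero O'') (_ : Algebra O' O'') (_ : Module.Finite O' O'') (_ : IsLocalHom (algebraMap O' O'')),
      Function.Injective (algebraMap O' O'') ∧
      ∃ ρ : GaloisRepAdic O'',
        (∀ (ℓ : ℕ) (hℓ : ℓ.Prime) (hℓM : ¬ ℓ ∣ M) (hℓS : ℓ ∉ (↑S : Set ℕ)),
          ∀ A : ValuationSubring (AlgebraicClosure ℚ), A.LiesOverPrime ℓ →
            ∀ σ : AlgebraicClosure ℚ ≃ₐ[ℚ] AlgebraicClosure ℚ, A.IsFrobeniusAt σ ℓ →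
              LinearMap.charpoly (ρ.ρ σ) =
                X ^ 2 - C (algebraMap O' O'' ((iota.comp chig.rangeRestrict) (CuspForm.heckeAlgebra.T hℓ hℓM hℓS))) * X
                  + C ((ℓ : O''))) ∧
        (∀ q : ℕ, q.Prime → q ≠ lam → q ∣ M → ¬ q ^ 2 ∣ M →
          ∀ A : ValuationSubring (AlgebraicClosure ℚ), A.LiesOverPrime q →
            ∀ σ : AlgebraicClosure ℚ ≃ₐ[ℚ] AlgebraicClosure ℚ, A.IsFrobeniusAt σ q →
              LinearMap.charpoly (ρ.ρ σ) = X ^ 2 - C ((q : O'') + 1) * X + C ((q : O'')) ∨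
              LinearMap.charpoly (ρ.ρ σ) = X ^ 2 + C ((q : O'') + 1) * X + C ((q : O''))) :=
  s35_of_good (newFrobAt_good_of_nodalFrob hNod) hg lam S O' hlamO' chig hchig iota hlamS hMS

end Fermat.Agent.BAD.S35.Final
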