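/-
BAD / S35: producing `NodalFrobAt h W` (the nodal fibre with `𝔽_{q²}`-rational nodes).

* `nodalFibreAt_of_nodalFrobAt` : `NodalFrobAt h W → BadU.NodalFibreAt h W` (projection), so a
  producer may prove the stronger statement only.
* `twist_of_rat` : the twist conjunct of `NodalFrobAt` from the rationality clause exported by
  `ChartNodes.exists_chart_nodes_of_points` (`FrobSq.cong_frobSq_nodes`).
* `nodalFrobAt_of_core` : `NodalFrobAt h W` from the LITERAL conclusion of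
  `NodalFibreAsm.nodalFibre_of_charts` (at `L = ℚ̄`, `O = OPair h W`, `red = redPair h W`,
  `F₁ = F₂ = κ`), the injectivity of the two families of nodes, the rationality of the
  coordinate `x` (`arithmeticGalois σ • x = x` for all `σ`) and the twist conjunct.
-/
import Mathlib
import Fermat.Agent.BAD.S35.ToricFrob
import Fermat.Agent.BAD.NodalFibreAsm

set_option autoImplicit false

namespace Fermat.Agent.BAD.S35.NodalFrob

open AlgebraicCurve ModularCurve Fermat.Agent.Lib.FF Fermat.Agent.BAD.NodalRiemann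
  Fermat.Agent.BAD.NodalPlaces Fermat.Agent.BAD.ChartDiv
  Fermat.Agent.BAD.TwoVal Fermat.Agent.BAD.S35.FrobSq Fermat.Agent.BAD.S35.ToricFrob
  Fermat.Agent.ESJ.Cong.FrobAut Fermat.Agent.BAD.BadU

local notation "Qb" => AlgebraicClosure ℚ

noncomputable section

variable {A : ValuationSubring Qb} {k : Type} [Field k] {π : A →+* k}
  {M q : ℕ} [NeZero M] [NeZero q]
  {W : laurentBaseChange Qb (modularFunctionFieldFull (M * q)) ≃ₐ[Qb]
    laurentBaseChange Qb (modularFunctionFieldFull (M * q))}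

/-- The nodal fibre with rational nodes is in particular the nodal fibre of BAD-U. -/
theorem nodalFibreAt_of_nodalFrobAt {h : BadSetup A π M q} (hnod : NodalFrobAt h W) :
    NodalFibreAt h W := by
  obtain ⟨ι, i1, i2, e₁, e₂, P₁, Z₁, P₂, Z₂, E1, E2, hinj₁, hinj₂, hP₁, hZ₁, hP₂, hZ₂, hd₁, hd₂,
    hdegP₁, hdegP₂, hE1, hE2, hdisj, hdegE1, hdegE2, hgalE, -, hS2⟩ := hnod
  exact ⟨ι, i1, i2, e₁, e₂, P₁, Z₁, P₂, Z₂, E1, E2, hinj₁, hinj₂, hP₁, hZ₁, hP₂, hZ₂, hd₁, hd₂,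
    hdegP₁, hdegP₂, hE1, hE2, hdisj, hdegE1, hdegE2, fun σ _ => hgalE σ, hS2⟩

set_option linter.overlappingInstances false in
omit [NeZero M] [NeZero q] in
/-- **The twist conjunct of `NodalFrobAt` from the rationality of the nodes**, in the shape
exported by `ChartNodes.exists_chart_nodes_of_points`: `t` a `Fr`-fixed coordinate of `κ`, finite
at the nodes, and every `Fr`-fixed function of the chart ring of `t` takes a value `c` with
`c ^ (q²) = c` at `e₁ i` and the value `c ^ q` at `e₂ i`. -/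
theorem twist_of_rat [Fact q.Prime] [CharP k q] [PerfectRing k q]
    {t : modularFunctionFieldFullC k M}
    (hFt : IsFF1 k (modularFunctionFieldFullC k M) t) (ht : frobAut k q M • t = t)
    {ι : Type*} (e₁ e₂ : ι → Place k (modularFunctionFieldFullC k M))
    (hf₁ : ∀ i, (e₁ i).adicValuation t ≤ 1) (hf₂ : ∀ i, (e₂ i).adicValuation t ≤ 1)
    (hrat : ∀ i, ∀ f ∈ finRing k t, frobAut k q M • f = f →
      ∃ c : k, c ^ (q ^ 2) = c ∧ Cong (e₁ i) f c ∧ Cong (e₂ i) f (c ^ q)) :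
    ∀ [Fact q.Prime] [CharP k q] [PerfectRing k q],
      (∀ i (f : modularFunctionFieldFullC k M) (c : k), Cong (e₁ i) f c →
        Cong (e₁ i) (frobSq k q M f) (c ^ (q ^ 2))) ∧
      (∀ i (f : modularFunctionFieldFullC k M) (c : k), Cong (e₂ i) f c →
        Cong (e₂ i) (frobSq k q M f) (c ^ (q ^ 2))) := by
  intro _ _ _
  exact cong_frobSq_nodes hFt ht e₁ e₂ hf₁ hf₂ hrat

/-- **`NodalFrobAt h W` from the conclusion of `NodalFibreAsm.nodalFibre_of_charts`** (`hcore`,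
verbatim, with bi-unit exponent `q'`), the injectivity of the nodes, the rationality of the
coordinate `x` and the twist conjunct (`twist_of_rat`). -/
theorem nodalFrobAt_of_core (h : BadSetup A π M q)
    {x : laurentBaseChange Qb (modularFunctionFieldFull (M * q))}
    (hF : IsFF1 Qb (laurentBaseChange Qb (modularFunctionFieldFull (M * q))) x)
    {x₁ x₂ : modularFunctionFieldFullC k M}
    (h₁ : IsFF1 k (modularFunctionFieldFullC k M) x₁)
    (h₂ : IsFF1 k (modularFunctionFieldFullC k M) x₂)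
    (hgx : ∀ σ : Qb ≃ₐ[ℚ] Qb, arithmeticGalois (modularFunctionFieldFull (M * q)) σ • x = x)
    (q' : ℕ) {ι : Type} [Fintype ι] (e₁ e₂ : ι → Place k (modularFunctionFieldFullC k M))
    (hinj₁ : Function.Injective e₁) (hinj₂ : Function.Injective e₂)
    (htw : ∀ [Fact q.Prime] [CharP k q] [PerfectRing k q],
      (∀ i (f : modularFunctionFieldFullC k M) (c : k), Cong (e₁ i) f c →
        Cong (e₁ i) (frobSq k q M f) (c ^ (q ^ 2))) ∧
      (∀ i (f : modularFunctionFieldFullC k M) (c : k), Cong (e₂ i) f c →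
        Cong (e₂ i) (frobSq k q M f) (c ^ (q ^ 2))))
    (hcore : Nonempty ι ∧
      (∀ i, h₁.poleDiv (e₁ i) = 0) ∧ (∀ i, zeroDiv h₁ (x₁ ^ q' - x₁ - 1) (e₁ i) = 0) ∧
      (∀ i, h₂.poleDiv (e₂ i) = 0) ∧ (∀ i, zeroDiv h₂ (x₂ ^ q' - x₂ - 1) (e₂ i) = 0) ∧
      (∀ v, h₁.poleDiv v = 0 ∨ zeroDiv h₁ (x₁ ^ q' - x₁ - 1) v = 0) ∧
      (∀ v, h₂.poleDiv v = 0 ∨ zeroDiv h₂ (x₂ ^ q' - x₂ - 1) v = 0) ∧
      0 < Divisor.degree h₁.poleDiv ∧ 0 < Divisor.degree h₂.poleDiv ∧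
      (∀ v, 0 ≤ hF.poleDiv v) ∧ (∀ v, 0 ≤ zeroDiv hF (x ^ q' - x - 1) v) ∧
      (∀ v, hF.poleDiv v = 0 ∨ zeroDiv hF (x ^ q' - x - 1) v = 0) ∧
      0 < Divisor.degree hF.poleDiv ∧ 0 < Divisor.degree (zeroDiv hF (x ^ q' - x - 1)) ∧
      (∀ g : SemilinearAut Qb (laurentBaseChange Qb (modularFunctionFieldFull (M * q))),
        g • x = x →
        g • hF.poleDiv = hF.poleDiv ∧
          g • zeroDiv hF (x ^ q' - x - 1) = zeroDiv hF (x ^ q' - x - 1)) ∧
      ∃ N₀ : ℕ, ∀ n₁ n₂ : ℕ, N₀ ≤ n₁ + n₂ →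
        ∀ t : ↥(modularFunctionFieldFullC k M) × ↥(modularFunctionFieldFullC k M),
        (∃ y : OPair h W,
            (y : laurentBaseChange Qb (modularFunctionFieldFull (M * q))) ∈
              riemannRochSpace (n₁ • hF.poleDiv + n₂ • zeroDiv hF (x ^ q' - x - 1)) ∧
            redPair h W y = t) ↔
          t ∈ gluedSpace e₁ e₂ (fun _ => (1 : k))
            (n₁ • h₁.poleDiv + n₂ • zeroDiv h₁ (x₁ ^ q' - x₁ - 1))
            (n₁ • h₂.poleDiv + n₂ • zeroDiv h₂ (x₂ ^ q' - x₂ - 1))) :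
    NodalFrobAt h W := by
  obtain ⟨hne, hP₁, hZ₁, hP₂, hZ₂, hd₁, hd₂, hdegP₁, hdegP₂, hE1, hE2, hdisj, hdegE1, hdegE2,
    hgalE, hS2⟩ := hcore
  exact ⟨ι, inferInstance, hne, e₁, e₂, h₁.poleDiv, zeroDiv h₁ (x₁ ^ q' - x₁ - 1), h₂.poleDiv,
    zeroDiv h₂ (x₂ ^ q' - x₂ - 1), hF.poleDiv, zeroDiv hF (x ^ q' - x - 1), hinj₁, hinj₂,
    hP₁, hZ₁, hP₂, hZ₂, hd₁, hd₂, hdegP₁, hdegP₂, hE1, hE2, hdisj, hdegE1, hdegE2,
    fun σ => hgalE _ (hgx σ), htw, hS2⟩

end

end Fermat.Agent.BAD.S35.NodalFrob
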