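/-
BAD / S35 (helper54): **`NodalFrobAt h W` at a good pair from a chart base** — the nodal fibre
with `𝔽_{q²}`-rational nodes (`S35/ToricFrob.NodalFrobAt`) from `IsChartBase h X`:
`NodalFibreInst.nodalFibre_good_frob` + `NodalFrob.twist_of_rat`.
-/
import Mathlib
import Fermat.Agent.BAD.NodalFibreInst
import Fermat.Agent.BAD.S35.NodalFrob

set_option autoImplicit false

namespace Fermat.Agent.BAD.S35.NodalFrobInst

open AlgebraicCurve ModularCurve Fermat.Agent.Lib.FF Fermat.Agent.Lib.Red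
  Fermat.Agent.BAD.TwoVal Fermat.Agent.BAD.S35.ToricFrob Fermat.Agent.BAD.S35.NodalFrob
  Fermat.Agent.BAD.SpecialFibre

local notation "Qb" => AlgebraicClosure ℚ

variable {A : ValuationSubring Qb} {k : Type} [Field k] [IsAlgClosed k] {π : A →+* k}
  {M q : ℕ} [NeZero M] [NeZero q]
  {W : laurentBaseChange Qb (modularFunctionFieldFull (M * q)) ≃ₐ[Qb]
    laurentBaseChange Qb (modularFunctionFieldFull (M * q))}

/-- **The nodal fibre with rational nodes at a good pair**, from a chart base `X`. -/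
theorem nodalFrobAt_good (h : BadSetup A π M q) (hW : IsAL M q W)
    (hsurj : Function.Surjective π)
    (hgood : 5 ≤ q ∨ (q = 3 ∧ 2 ∣ M) ∨ (q = 2 ∧ 3 ∣ M))
    (X : ↥(laurentBaseChange Qb (modularFunctionFieldFull M))) (hX : IsChartBase h X) :
    NodalFrobAt h W := by
  haveI : Fact q.Prime := ⟨h.hℓ⟩
  haveI : CharP k q := h.charP
  haveI : PerfectRing k q := inferInstance
  obtain ⟨ι, i1, i2, e₁, e₂, P₁, Z₁, P₂, Z₂, E1, E2, ⟨hinj₁, hinj₂, hP₁, hZ₁, hP₂, hZ₂, hd₁, hd₂,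
    hdegP₁, hdegP₂, hE1, hE2, hdisj, hdegE1, hdegE2, hgalE, hS2⟩, hf₁, hf₂, hrat⟩ :=
    NodalFibreInst.nodalFibre_good_frob h hW hsurj hgood X hX
  exact ⟨ι, i1, i2, e₁, e₂, P₁, Z₁, P₂, Z₂, E1, E2, hinj₁, hinj₂, hP₁, hZ₁, hP₂, hZ₂, hd₁, hd₂,
    hdegP₁, hdegP₂, hE1, hE2, hdisj, hdegE1, hdegE2, hgalE,
    twist_of_rat (isFF1_redX_pow hX) (pow_fixed (frobAut_smul_redX hX) (q + 1)) e₁ e₂ hf₁ hf₂
      hrat, hS2⟩

end Fermat.Agent.BAD.S35.NodalFrobInst
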